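import Mathlib.RingTheory.Regular.RegularSequence
import Mathlib.RingTheory.MvPowerSeries.Equiv
import Mathlib.RingTheory.PowerSeries.Inverse
import Mathlib.RingTheory.DiscreteValuationRing.Basic

/-!
# The standard regular system of parameters of a power series ring over a DVR
-/

namespace Fermat.Agent.PatchDescent

open IsLocalRing RingTheory.Sequence Pointwise

/-- Prepending the variable to a weakly regular sequence of constants. -/
theorem isWeaklyRegular_powerSeries_cons {B : Type} [CommRing B] {rs : List B}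
    (h : IsWeaklyRegular B rs) :
    IsWeaklyRegular (PowerSeries B) (PowerSeries.X :: rs.map PowerSeries.C) := by
  refine IsWeaklyRegular.cons ?_ ?_
  · intro f g hfg
    exact PowerSeries.X_mul_cancel hfg
  · let f : B →+ QuotSMulTop (PowerSeries.X : PowerSeries B) (PowerSeries B) :=
      (Submodule.mkQ _).toAddMonoidHom.comp (PowerSeries.C (R := B)).toAddMonoidHom
    have hf : Function.Bijective f := by
      constructor
      · rw [injective_iff_map_eq_zero]
        intro b hb
        obtain ⟨g, -, hg⟩ := (Submodule.mem_smul_pointwise_iff_exists _ _ _).mp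
          ((Submodule.Quotient.mk_eq_zero _).mp hb)
        have := congrArg PowerSeries.constantCoeff hg
        simpa using this.symm
      · intro q
        obtain ⟨g, rfl⟩ := Submodule.Quotient.mk_surjective _ q
        refine ⟨PowerSeries.constantCoeff g, (Submodule.Quotient.eq _).mpr ?_⟩
        rw [← neg_sub, Submodule.neg_mem_iff]
        obtain ⟨k, hk⟩ : PowerSeries.X ∣ g - PowerSeries.C (PowerSeries.constantCoeff g) :=
          PowerSeries.X_dvd_iff.mpr (by simp)
        exact (Submodule.mem_smul_pointwise_iff_exists _ _ _).mpr ⟨k, trivial, hk.symm⟩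
    refine ((AddEquiv.ofBijective f hf).isWeaklyRegular_congr ?_).mp h
    refine List.forall₂_map_right_iff.mpr (List.forall₂_same.mpr fun b _ c => ?_)
    change Submodule.mkQ _ (PowerSeries.C (b * c)) =
      PowerSeries.C b • Submodule.mkQ _ (PowerSeries.C c)
    rw [map_mul, ← smul_eq_mul, map_smul]

/-- Weak regularity of a sequence in a ring is preserved by ring isomorphisms. -/
theorem isWeaklyRegular_ringEquiv {A B : Type} [CommRing A] [CommRing B] (e : A ≃+* B)
    {rs : List A} (h : IsWeaklyRegular B (rs.map e)) : IsWeaklyRegular A rs :=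
  (e.toAddEquiv.isWeaklyRegular_congr (List.forall₂_map_right_iff.mpr
    (List.forall₂_same.mpr fun r _ x => map_mul e r x))).mpr h

/-- The list `X₀, …, X_{r-1}, ϖ`. -/
noncomputable def params {𝒪 : Type} [CommRing 𝒪] (r : ℕ) (ϖ : 𝒪) :
    List (MvPowerSeries (Fin r) 𝒪) :=
  List.ofFn (MvPowerSeries.X (R := 𝒪)) ++ [MvPowerSeries.C ϖ]

/-- There are `r + 1` parameters. -/
theorem length_params {𝒪 : Type} [CommRing 𝒪] (r : ℕ) (ϖ : 𝒪) :
    (params r ϖ).length = r + 1 := by
  simp [params]

theorem map_finSuccEquiv_params {𝒪 : Type} [CommRing 𝒪] (r : ℕ) (ϖ : 𝒪) :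
    (params (r + 1) ϖ).map (MvPowerSeries.finSuccEquiv 𝒪 r).toRingEquiv =
      PowerSeries.X :: (params r ϖ).map PowerSeries.C := by
  simp [params, List.ofFn_succ, List.map_ofFn, Function.comp_def]

variable {𝒪 : Type} [CommRing 𝒪] [IsDomain 𝒪]

/-- `X₀, …, X_{r-1}, ϖ` is a weakly regular sequence. -/
theorem isWeaklyRegular_params {ϖ : 𝒪} (hϖ : Irreducible ϖ) (r : ℕ) :
    IsWeaklyRegular (MvPowerSeries (Fin r) 𝒪) (params r ϖ) := by
  induction r with
  | zero =>
    refine isWeaklyRegular_ringEquiv (MvPowerSeries.isEmptyEquiv (Fin 0) 𝒪).toRingEquiv ?_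
    simp only [params, List.ofFn_zero, List.nil_append, List.map_cons, List.map_nil,
      isWeaklyRegular_cons_iff]
    refine ⟨?_, IsWeaklyRegular.nil _ _⟩
    intro a b hab
    simpa [MvPowerSeries.isEmptyEquiv, hϖ.ne_zero] using hab
  | succ r ih =>
    refine isWeaklyRegular_ringEquiv (MvPowerSeries.finSuccEquiv 𝒪 r).toRingEquiv ?_
    rw [map_finSuccEquiv_params]
    exact isWeaklyRegular_powerSeries_cons ih

variable [IsDiscreteValuationRing 𝒪]

/-- `X₀, …, X_{r-1}, ϖ` generate the maximal ideal. -/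
theorem maximalIdeal_le_params {ϖ : 𝒪} (hϖ : Irreducible ϖ) (r : ℕ) :
    maximalIdeal (MvPowerSeries (Fin r) 𝒪) ≤ Ideal.ofList (params r ϖ) := by
  induction r with
  | zero =>
    intro f hf
    have hc : MvPowerSeries.constantCoeff f ∈ maximalIdeal 𝒪 := by
      rw [mem_maximalIdeal, mem_nonunits_iff] at hf ⊢
      rwa [← MvPowerSeries.isUnit_iff_constantCoeff]
    rw [hϖ.maximalIdeal_eq, Ideal.mem_span_singleton] at hc
    obtain ⟨u, hu⟩ := hc
    have : f = MvPowerSeries.C ϖ * MvPowerSeries.C u := by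
      rw [← map_mul, ← hu]
      exact ((MvPowerSeries.isEmptyEquiv (Fin 0) 𝒪).symm_apply_apply f).symm
    rw [this]
    exact Ideal.mul_mem_right _ _ (Ideal.subset_span (by simp [params]))
  | succ r ih =>
    intro f hf
    let e := (MvPowerSeries.finSuccEquiv 𝒪 r).toRingEquiv
    suffices e f ∈ Ideal.map e (Ideal.ofList (params (r + 1) ϖ)) by
      obtain ⟨g, hg, hgf⟩ := (Ideal.mem_map_of_equiv e _).mp this
      exact e.injective hgf ▸ hg
    rw [show Ideal.map e (Ideal.ofList (params (r + 1) ϖ)) =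
      Ideal.map (e : MvPowerSeries (Fin (r + 1)) 𝒪 →+* _) (Ideal.ofList (params (r + 1) ϖ))
      from rfl, Ideal.map_ofList]
    rw [show (params (r + 1) ϖ).map
      (e : MvPowerSeries (Fin (r + 1)) 𝒪 →+* PowerSeries (MvPowerSeries (Fin r) 𝒪)) =
        PowerSeries.X :: (params r ϖ).map PowerSeries.C from map_finSuccEquiv_params r ϖ]
    rw [mem_maximalIdeal, mem_nonunits_iff] at hf
    have hc : PowerSeries.constantCoeff (e f) ∈ maximalIdeal (MvPowerSeries (Fin r) 𝒪) := by
      rw [mem_maximalIdeal, mem_nonunits_iff, ← PowerSeries.isUnit_iff_constantCoeff,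
        isUnit_map_iff]
      exact hf
    rw [Ideal.ofList_cons, ← Ideal.map_ofList]
    obtain ⟨k, hk⟩ : PowerSeries.X ∣ e f - PowerSeries.C (PowerSeries.constantCoeff (e f)) :=
      PowerSeries.X_dvd_iff.mpr (by simp)
    rw [sub_eq_iff_eq_add] at hk
    rw [hk]
    exact Submodule.add_mem_sup (Ideal.mem_span_singleton.mpr (dvd_mul_right _ _))
      (Ideal.mem_map_of_mem _ (ih hc))

/-- The maximal ideal of `𝒪⟦X₀, …, X_{r-1}⟧` needs at most `r + 1` generators. -/
theorem spanFinrank_maximalIdeal_le (r : ℕ) :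
    (maximalIdeal (MvPowerSeries (Fin r) 𝒪)).spanFinrank ≤ r + 1 := by
  classical
  obtain ⟨ϖ, hϖ⟩ := IsDiscreteValuationRing.exists_irreducible 𝒪
  have hle : Ideal.ofList (params r ϖ) ≤ maximalIdeal (MvPowerSeries (Fin r) 𝒪) := by
    refine Ideal.span_le.mpr fun y hy => ?_
    rw [SetLike.mem_coe, mem_maximalIdeal, mem_nonunits_iff,
      MvPowerSeries.isUnit_iff_constantCoeff]
    simp only [params, Set.mem_ofPred_eq, List.mem_append, List.mem_ofFn, List.mem_cons,
      List.not_mem_nil, or_false] at hy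
    rcases hy with ⟨i, rfl⟩ | rfl
    · simp
    · simpa using hϖ.not_isUnit
  rw [le_antisymm (maximalIdeal_le_params hϖ r) hle]
  have hfin : {x | x ∈ params r ϖ}.Finite := (params r ϖ).finite_toSet
  refine (Submodule.spanFinrank_span_le_ncard_of_finite hfin).trans ?_
  rw [← length_params r ϖ, show {x | x ∈ params r ϖ} = ↑(params r ϖ).toFinset by ext; simp,
    Set.ncard_coe_finset]
  exact List.toFinset_card_le _

end Fermat.Agent.PatchDescent
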