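import Mathlib.RingTheory.Depth.Rees
import Mathlib.RingTheory.Regular.Free
import Mathlib.RingTheory.Ideal.AssociatedPrime.Finiteness
import Mathlib.RingTheory.LocalRing.MaximalIdeal.Basic
import Mathlib.RingTheory.LocalRing.ResidueField.Basic
import Mathlib.RingTheory.Nakayama

/-!
# Finite modules of maximal depth over a local ring are free

If the maximal ideal of a Noetherian local ring `R` is generated by `n` elements and the finite
module `M` has a regular sequence of length `n` in the maximal ideal, then `M` is free.
-/

namespace Fermat.Agent.PatchDescent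

open IsLocalRing RingTheory.Sequence CategoryTheory CategoryTheory.Abelian Pointwise

/-- If `M` has a regular sequence of length `n + 1` in `I` and `x ∈ I` is `M`-regular, then
`M/xM` has a regular sequence of length `n` in `I`. -/
theorem exists_isRegular_quotSMulTop {R : Type} [CommRing R] [IsNoetherianRing R]
    (I : Ideal R) (M : Type) [AddCommGroup M] [Module R M] [Module.Finite R M]
    (rs : List R) {n : ℕ} (len : rs.length = n + 1) (mem : ∀ r ∈ rs, r ∈ I)
    (reg : IsRegular M rs) (hI : I • (⊤ : Submodule R M) < ⊤)
    (x : R) (hx : x ∈ I) (xreg : IsSMulRegular M x) :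
    ∃ rs' : List R, rs'.length = n ∧ (∀ r ∈ rs', r ∈ I) ∧ IsRegular (QuotSMulTop x M) rs' := by
  let Nq : ModuleCat.{0} R := ModuleCat.of R (R ⧸ I)
  have hsupp : Module.support R Nq = PrimeSpectrum.zeroLocus I := by
    simp [Nq, Module.support_eq_zeroLocus, Ideal.annihilator_quotient]
  have hM : ∀ i < n + 1, Subsingleton (Ext Nq (ModuleCat.of R M) i) := by
    intro i hi
    exact ModuleCat.subsingleton_ext_of_exists_isRegular I Nq hsupp.subset (ModuleCat.of R M)
      hI rs mem reg i (len.symm ▸ hi)
  have hQ : ∀ i < n, Subsingleton (Ext Nq (ModuleCat.of R (QuotSMulTop x M)) i) := by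
    intro i hi
    have zero1 := AddCommGrpCat.isZero_of_iff_subsingleton.mpr (hM i (by omega))
    have zero2 := AddCommGrpCat.isZero_of_iff_subsingleton.mpr (hM (i + 1) (by omega))
    have xreg' : IsSMulRegular (ModuleCat.of R M) x := xreg
    exact AddCommGrpCat.subsingleton_of_isZero <| ShortComplex.Exact.isZero_of_both_zeros
      ((Ext.covariant_sequence_exact₃' Nq xreg'.smulShortComplex_shortExact) i (i + 1) rfl)
      (zero1.eq_zero_of_src _) (zero2.eq_zero_of_tgt _)
  have hlt : I • (⊤ : Submodule R (QuotSMulTop x M)) < ⊤ := by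
    refine lt_top_iff_ne_top.mpr fun eq => hI.ne ?_
    have := congrArg (Submodule.comap (Submodule.mkQ (x • (⊤ : Submodule R M)))) eq
    simpa [Submodule.comap_smul_top_of_surjective I _ (Submodule.mkQ_surjective _),
      Submodule.smul_mono_left ((Ideal.span_singleton_le_iff_mem I).mpr hx),
      ← Submodule.ideal_span_singleton_smul] using this
  exact ModuleCat.exists_isRegular_of_exists_subsingleton_ext I n
    (ModuleCat.of R (QuotSMulTop x M)) hlt Nq hsupp hQ

/-- A maximal ideal generated by `s ≤ n + 1` elements becomes generated by `≤ n` elements modulo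
an element outside its square. -/
theorem spanFinrank_quotient_le {R : Type} [CommRing R] [IsLocalRing R] [IsNoetherianRing R]
    {x : R} (hx : x ∈ maximalIdeal R) (hx2 : x ∉ maximalIdeal R ^ 2) {n : ℕ}
    (hn : (maximalIdeal R).spanFinrank ≤ n + 1) :
    (Ideal.map (Ideal.Quotient.mk (Ideal.span {x})) (maximalIdeal R)).spanFinrank ≤ n := by
  classical
  have fg : Submodule.FG (maximalIdeal R) := IsNoetherian.noetherian _
  obtain ⟨s, hs, hspan⟩ : ∃ s : Finset R, s.card ≤ n + 1 ∧ Ideal.span (↑s) = maximalIdeal R := by
    have hfin := Submodule.FG.finite_generators fg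
    refine ⟨hfin.toFinset, ?_, ?_⟩
    · rw [← Set.ncard_eq_toFinset_card _ hfin, Submodule.FG.generators_ncard fg]; exact hn
    · simpa using Submodule.span_generators (maximalIdeal R)
  rw [← hspan] at hx
  obtain ⟨c, hc⟩ := Submodule.mem_span_finset'.mp hx
  obtain ⟨g, hg⟩ : ∃ g : s, IsUnit (c g) := by
    by_contra! hne
    apply hx2
    rw [← hc]
    refine Ideal.sum_mem _ fun g _ => ?_
    rw [pow_two, smul_eq_mul]
    exact Ideal.mul_mem_mul ((mem_maximalIdeal _).mpr (hne g))
      (hspan ▸ Ideal.subset_span g.2)
  set π := Ideal.Quotient.mk (Ideal.span {x})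
  let t : Finset (R ⧸ Ideal.span {x}) := (s.erase g).image π
  have ht : t.card ≤ n := Finset.card_image_le.trans (by
    rw [Finset.card_erase_of_mem g.2]; omega)
  have : Ideal.map π (maximalIdeal R) = Ideal.span (↑t) := by
    rw [← hspan, Ideal.map_span]
    refine le_antisymm (Ideal.span_le.mpr ?_) (Ideal.span_mono ?_)
    · rintro _ ⟨y, hy, rfl⟩
      by_cases hyg : y = g
      · subst hyg
        have h0 : π (∑ i, c i • (i : R)) = 0 := by
          rw [hc]; exact Ideal.Quotient.eq_zero_iff_mem.mpr (Ideal.mem_span_singleton_self x)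
        rw [map_sum, ← Finset.add_sum_erase _ _ (Finset.mem_univ g), add_eq_zero_iff_eq_neg] at h0
        have hmem : π (c g • (g : R)) ∈ Ideal.span (↑t) := by
          rw [h0]
          refine neg_mem (Ideal.sum_mem _ fun i hi => ?_)
          rw [smul_eq_mul, map_mul]
          refine Ideal.mul_mem_left _ _ (Ideal.subset_span ?_)
          simp only [t, Finset.coe_image]
          refine ⟨i, ?_, rfl⟩
          simp only [Finset.coe_erase, Set.mem_sdiff, Set.mem_singleton_iff]
          exact ⟨i.2, fun e => Finset.ne_of_mem_erase hi (Subtype.ext e)⟩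
        rw [smul_eq_mul, map_mul] at hmem
        exact (Ideal.unit_mul_mem_iff_mem _ (hg.map π)).mp hmem
      · refine Ideal.subset_span ?_
        simp only [t, Finset.coe_image]
        exact ⟨y, by simpa [hyg] using hy, rfl⟩
    · simp only [t, Finset.coe_image]
      exact Set.image_mono (by simp)
  rw [this]
  refine (Submodule.spanFinrank_span_le_ncard_of_finite t.finite_toSet).trans ?_
  rwa [Set.ncard_coe_finset]

/-- A finite module over a Noetherian local ring whose maximal ideal is generated by `n` elements,
having a regular sequence of length `n` in the maximal ideal, is free. -/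
theorem free_of_regularSequence (n : ℕ) :
    ∀ (R : Type) [CommRing R] [IsLocalRing R] [IsNoetherianRing R],
      (maximalIdeal R).spanFinrank ≤ n →
      ∀ (M : Type) [AddCommGroup M] [Module R M] [Module.Finite R M] (rs : List R),
        rs.length = n → (∀ r ∈ rs, r ∈ maximalIdeal R) → IsRegular M rs →
        Module.Free R M := by
  induction n with
  | zero =>
    intro R _ _ _ hR M _ _ _ rs _ _ _
    have hbot : maximalIdeal R = ⊥ :=
      (Submodule.spanFinrank_eq_zero_iff_eq_bot (IsNoetherian.noetherian _)).mp (by omega)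
    let : Field R := (isField_iff_maximalIdeal_eq.mpr hbot).toField
    exact Module.Free.of_divisionRing R M
  | succ n ih =>
    intro R _ _ _ hR M _ _ _ rs len mem reg
    by_cases hbot : maximalIdeal R = ⊥
    · let : Field R := (isField_iff_maximalIdeal_eq.mpr hbot).toField
      exact Module.Free.of_divisionRing R M
    have hMne : Nontrivial M := reg.nontrivial
    have hsq : ¬ maximalIdeal R ≤ maximalIdeal R ^ 2 := fun h => hbot <|
      Submodule.eq_bot_of_le_smul_of_le_jacobson_bot (maximalIdeal R) _ (IsNoetherian.noetherian _)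
        (by rwa [smul_eq_mul, ← pow_two]) (maximalIdeal_le_jacobson _)
    obtain ⟨r₁, rs₁, rfl⟩ : ∃ a as, rs = a :: as := List.exists_cons_of_length_eq_add_one len
    have hr₁reg : IsSMulRegular M r₁ := ((isRegular_cons_iff M r₁ rs₁).mp reg).1
    obtain ⟨x, hxm, hx2, hxreg⟩ :
        ∃ x ∈ maximalIdeal R, x ∉ maximalIdeal R ^ 2 ∧ IsSMulRegular M x := by
      by_contra! hcon
      have hass := associatedPrimes.finite R M
      have hsub : (↑(maximalIdeal R) : Set R) ⊆
          ⋃ p ∈ insert (maximalIdeal R ^ 2) (associatedPrimes R M), ↑p := by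
        intro y hy
        by_cases hy2 : y ∈ maximalIdeal R ^ 2
        · exact Set.mem_biUnion (Set.mem_insert _ _) hy2
        · have : y ∈ ⋃ p ∈ associatedPrimes R M, (p : Set R) := by
            rw [biUnion_associatedPrimes_eq_compl_regular R M]; exact hcon y hy hy2
          obtain ⟨p, hp, hyp⟩ := Set.mem_iUnion₂.mp this
          exact Set.mem_biUnion (Set.mem_insert_of_mem _ hp) hyp
      obtain ⟨p, hp, hle⟩ := (Ideal.subset_union_prime_finite (hass.insert _) (f := id)
        (maximalIdeal R ^ 2) (maximalIdeal R ^ 2)
        (fun i hi h _ => (Set.mem_insert_iff.mp hi).elim (fun e => absurd e h)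
          (fun h' => h'.isPrime))).mp hsub
      rcases hp with rfl | hp
      · exact hsq hle
      · have : r₁ ∈ ⋃ p ∈ associatedPrimes R M, (p : Set R) :=
          Set.mem_biUnion hp (hle (mem r₁ (by simp)))
        rw [biUnion_associatedPrimes_eq_compl_regular R M] at this
        exact this hr₁reg
    have hlt : maximalIdeal R • (⊤ : Submodule R M) < ⊤ :=
      lt_top_iff_ne_top.mpr (Submodule.top_ne_ideal_smul_of_le_jacobson_annihilator
        (maximalIdeal_le_jacobson _)).symm
    obtain ⟨rs', len', mem', reg'⟩ :=
      exists_isRegular_quotSMulTop (maximalIdeal R) M _ len mem reg hlt x hxm hxreg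
    let π := Ideal.Quotient.mk (Ideal.span {x})
    have hxtop : Ideal.span {x} ≠ ⊤ := fun h => (maximalIdeal.isMaximal R).ne_top <|
      top_le_iff.mp (h ▸ (Ideal.span_singleton_le_iff_mem _).mpr hxm)
    have : Nontrivial (R ⧸ Ideal.span {x}) := Ideal.Quotient.nontrivial_iff.mpr hxtop
    have : IsNoetherianRing (R ⧸ Ideal.span {x}) :=
      isNoetherianRing_of_surjective R _ π Ideal.Quotient.mk_surjective
    have : IsLocalRing (R ⧸ Ideal.span {x}) :=
      IsLocalRing.of_surjective' π Ideal.Quotient.mk_surjective
    have hmax : Ideal.map π (maximalIdeal R) = maximalIdeal (R ⧸ Ideal.span {x}) := by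
      refine IsLocalRing.eq_maximalIdeal ?_
      refine (Ideal.map_eq_top_or_isMaximal_of_surjective π Ideal.Quotient.mk_surjective
        (maximalIdeal.isMaximal R)).resolve_left fun h => ?_
      have := congrArg (Ideal.comap π) h
      rw [Ideal.comap_map_of_surjective _ Ideal.Quotient.mk_surjective, Ideal.comap_top,
        ← RingHom.ker_eq_comap_bot, Ideal.mk_ker, sup_eq_left.mpr
          ((Ideal.span_singleton_le_iff_mem _).mpr hxm)] at this
      exact (maximalIdeal.isMaximal R).ne_top this
    have : Module.Finite (R ⧸ Ideal.span {x}) (QuotSMulTop x M) :=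
      Module.Finite.of_restrictScalars_finite R _ _
    have hreg'' : IsRegular (QuotSMulTop x M) (rs'.map π) := by
      have : Nontrivial (QuotSMulTop x M) := reg'.nontrivial
      refine IsRegular.of_isWeaklyRegular_of_mem_maximalIdeal _ ?_ ?_
      · intro y hy
        obtain ⟨z, hz, rfl⟩ := List.mem_map.mp hy
        exact hmax ▸ Ideal.mem_map_of_mem π (mem' z hz)
      · exact (isWeaklyRegular_map_algebraMap_iff (R ⧸ Ideal.span {x}) (QuotSMulTop x M) rs').mpr
          reg'.toIsWeaklyRegular
    have hfree := ih (R ⧸ Ideal.span {x})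
      (hmax ▸ spanFinrank_quotient_le hxm hx2 hR) (QuotSMulTop x M) (rs'.map π)
      (by simpa using len') (fun y hy => by
        obtain ⟨z, hz, rfl⟩ := List.mem_map.mp hy
        exact hmax ▸ Ideal.mem_map_of_mem π (mem' z hz)) hreg''
    have : Module.FinitePresentation R M := Module.finitePresentation_of_finite R M
    exact (Module.free_quotSMulTop_iff_free R M (maximalIdeal_le_jacobson _ hxm) hxreg).mp hfree

end Fermat.Agent.PatchDescent
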